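import Mathlib
import Fermat.Prelude.Def_CuspForm_Newforms

/-!
# Interface between the cohomology of `Γ_H` and the patching argument

For squarefree `L` and a character `ψ` of `(ℤ/L)ˣ` onto a finite abelian `p`-group `Δ`,
`HeckeModule` records what the cohomology of `ker ψ ⊆ Γ₀(L)` localised at a non-Eisenstein
residual system `abar` has to provide.
-/

set_option autoImplicit false

noncomputable section

namespace Fermat.Agent.RT

open IsLocalRing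
open scoped ModularForm

/-- The twisting exponent: `x ^ halfInvExp Δ` is the square root of `x⁻¹` for odd `|Δ|`. -/
def halfInvExp (Δ : Type) : ℕ := (Nat.card Δ - 1) / 2

/-- A cusp form congruent to the residual system `abar` outside `S`. -/
def IsCongruentForm {k : Type} [Field k] (S : Finset ℕ) (abar : ℕ → k) {M : ℕ}
    (g : CuspForm (CongruenceSubgroup.Gamma0 M) 2) : Prop :=
  g.IsNormalizedEigenform ∧ ∃ φ : integralClosure ℤ ℂ →+* AlgebraicClosure k,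
    ∀ ℓ : ℕ, ℓ.Prime → ℓ ∉ S → ∀ a : integralClosure ℤ ℂ,
      (a : ℂ) = ModularFormClass.qCoeff g ℓ → φ a = algebraMap k _ (abar ℓ)

/-- Some cusp form of level `M` is congruent to the residual system. -/
def IsCongruentLevel {k : Type} [Field k] (S : Finset ℕ) (abar : ℕ → k) (M : ℕ) : Prop :=
  ∃ g : CuspForm (CongruenceSubgroup.Gamma0 M) 2, IsCongruentForm S abar g

variable {O : Type} [CommRing O] [IsLocalRing O]

/-- The localised Hecke module of level `ker ψ`. `T ℓ` is the Hecke operator at `ℓ ∉ S`, `dia` the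
diamond action; a system `θ` comes from a form `f` of nebentypus `θ ∘ dia ∘ ψ` and from the newform of its twist, with
`a_ℓ = θ (dia (ψ ℓ) ^ halfInvExp * T ℓ)`. -/
structure HeckeModule (L : ℕ) {Δ : Type} [CommGroup Δ] (ψ : (ZMod L)ˣ →* Δ) (S : Finset ℕ)
    (abar : ℕ → ResidueField O) : Type 1 where
  M : Type
  [instAddCommGroup : AddCommGroup M]
  [instModule : Module O M]
  /-- The `O[Δ]`-rank. -/
  d : ℕ
  basis : Fin d → M
  T : ℕ → Module.End O M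
  dia : Δ →* Module.End O M
  basis_bijective : Function.Bijective fun c : Fin d × Δ →₀ O =>
    c.sum fun iδ x => x • dia iδ.2 (basis iδ.1)
  T_comm : ∀ ℓ ℓ', T ℓ * T ℓ' = T ℓ' * T ℓ
  dia_comm : ∀ ℓ δ, T ℓ * dia δ = dia δ * T ℓ
  residual : ∀ ℓ : ℕ, ℓ.Prime → ℓ ∉ S → ∀ a : O, residue O a = abar ℓ →
    ∃ n : ℕ, ∀ x : M, ((T ℓ - a • (1 : Module.End O M)) ^ n) x ∈
      (maximalIdeal O) • (⊤ : Submodule O M)
  isReduced : IsReduced (Algebra.adjoin O (Set.range dia ∪ T '' {ℓ | ℓ.Prime ∧ ℓ ∉ S}))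
  eigen : ∀ θ : Algebra.adjoin O (Set.range dia ∪ T '' {ℓ | ℓ.Prime ∧ ℓ ∉ S}) →+* ℂ,
    ∃ (L' : ℕ) (g : CuspForm (CongruenceSubgroup.Gamma0 L') 2), g.IsNewform ∧ L' ∣ L ^ 2 ∧
      (∀ (ℓ : ℕ) (hℓ : ℓ.Prime) (hℓS : ℓ ∉ S) (u : (ZMod L)ˣ), (u : ZMod L) = (ℓ : ZMod L) →
        ModularFormClass.qCoeff g ℓ =
          θ (⟨dia (ψ u), Algebra.subset_adjoin (Or.inl ⟨_, rfl⟩)⟩ ^ halfInvExp Δ *
            ⟨T ℓ, Algebra.subset_adjoin (Or.inr ⟨ℓ, ⟨hℓ, hℓS⟩, rfl⟩)⟩)) ∧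
      (∀ v : ℕ, v.Prime → v ∣ L → (v ^ 2 ∣ L' ↔ ∃ u : (ZMod L)ˣ,
        ((u : ZMod L).cast : ZMod (L / v)) = 1 ∧
          θ ⟨dia (ψ u), Algebra.subset_adjoin (Or.inl ⟨_, rfl⟩)⟩ ≠ 1)) ∧
      (∀ v : ℕ, v.Prime → v ∣ L → ¬ v ∣ L' → IsCongruentLevel S abar (L / v)) ∧
      ∃ f : CuspForm (CongruenceSubgroup.Gamma1 L) 2, ModularFormClass.qCoeff f 1 = 1 ∧
        (∀ (γ : CongruenceSubgroup.Gamma0 L) (u : (ZMod L)ˣ),
          CongruenceSubgroup.Gamma0Map L γ = (u : ZMod L) →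
            (⇑f) ∣[(2 : ℤ)] (γ : Matrix.SpecialLinearGroup (Fin 2) ℤ) =
              θ ⟨dia (ψ u), Algebra.subset_adjoin (Or.inl ⟨_, rfl⟩)⟩ • ⇑f) ∧
        (∀ (ℓ : ℕ) (hℓ : ℓ.Prime) (hℓS : ℓ ∉ S), ModularFormClass.qCoeff f ℓ =
          θ ⟨T ℓ, Algebra.subset_adjoin (Or.inr ⟨ℓ, ⟨hℓ, hℓS⟩, rfl⟩)⟩) ∧
        ∀ (ℓ : ℕ) (_hℓ : ℓ.Prime) (_hℓS : ℓ ∉ S) (u : (ZMod L)ˣ), (u : ZMod L) = (ℓ : ZMod L) →
          ∀ n : ℕ, ModularFormClass.qCoeff f (n * ℓ) +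
              (if ℓ ∣ n then θ ⟨dia (ψ u), Algebra.subset_adjoin (Or.inl ⟨_, rfl⟩)⟩ * ℓ *
                ModularFormClass.qCoeff f (n / ℓ) else 0) =
            ModularFormClass.qCoeff f ℓ * ModularFormClass.qCoeff f n

attribute [instance] HeckeModule.instAddCommGroup HeckeModule.instModule

/-- The Hecke algebra of a Hecke module. -/
abbrev HeckeModule.algebra {L : ℕ} {Δ : Type} [CommGroup Δ] {ψ : (ZMod L)ˣ →* Δ} {S : Finset ℕ}
    {abar : ℕ → ResidueField O} (H : HeckeModule L ψ S abar) : Subalgebra O (Module.End O H.M) :=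
  Algebra.adjoin O (Set.range H.dia ∪ H.T '' {ℓ | ℓ.Prime ∧ ℓ ∉ S})

end Fermat.Agent.RT
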